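import Mathlib
import Fermat.Agent.S59.H121.PeuSpec
import Fermat.Agent.S59.H382.Global

/-!
# Row S59, cell TW, leaf TW-STRICT (b) PEU-FLAT, sub-leaf DEN (helper402)

`den : Fermat.Agent.S59.H121.DenStatement` — every element `c` of a valuation subring `P` of `ℚ̄`
over `p` is a quotient `(s c) / s` of elements integral over `ℤ_(p)` with `s` a `P`-unit.

Proof: `f = ∑ a_i X^i ∈ ℤ[X]` primitive with `f(c) = 0`; the tails
`s_j = ∑_{i ≥ j} a_i c^(i-j)` (`= aeval c (divX^[j] f)`) satisfy `s_0 = 0`,
`s_j = s_{j+1} c + a_j`, so they lie in EVERY valuation subring of `ℚ̄` (if `c ∉ A` then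
`c⁻¹ ∈ A` and `s_{j+1} = c⁻¹ (s_j - a_j)`), and so do the `s_j c`.  For `k` the last index with
`p ∤ a_k`, `s_k ≡ a_k` modulo `p P`, so `s_k` is a `P`-unit.
-/

set_option autoImplicit false

namespace Fermat.Agent.S59.H402

open Polynomial
open Fermat.Agent.S19 (Qb GalQ Rl Zb)

/-- coefficients of the iterated `divX` -/
lemma coeff_iterate_divX402 (f : ℤ[X]) (j i : ℕ) :
    ((divX^[j]) f).coeff i = f.coeff (i + j) := by
  induction j generalizing i with
  | zero => simp
  | succ j ih =>
    rw [Function.iterate_succ_apply', coeff_divX, ih]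
    congr 1
    omega

/-- the tails `s_j = ∑_{i ≥ j} a_i c^(i-j)` of `f(c)` -/
noncomputable def tail402 (f : ℤ[X]) (c : Qb) (j : ℕ) : Qb := aeval c ((divX^[j]) f)

lemma tail402_zero (f : ℤ[X]) (c : Qb) : tail402 f c 0 = aeval c f := rfl

lemma tail402_succ (f : ℤ[X]) (c : Qb) (j : ℕ) :
    tail402 f c j = tail402 f c (j + 1) * c + (f.coeff j : Qb) := by
  unfold tail402
  have h := divX_mul_X_add ((divX^[j]) f)
  conv_lhs => rw [← h]
  rw [Function.iterate_succ_apply']
  simp [coeff_iterate_divX402]

/-- a polynomial expression in `c ∈ A` with integer coefficients lies in `A` -/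
lemma aeval_mem402 (A : ValuationSubring Qb) {c : Qb} (hc : c ∈ A) (g : ℤ[X]) :
    aeval c g ∈ A := by
  rw [aeval_eq_sum_range]
  refine Subring.sum_mem A.toSubring fun i _ => ?_
  rw [zsmul_eq_mul]
  exact A.mul_mem _ _ (intCast_mem A _) (pow_mem hc i)

/-- the tails lie in every valuation subring -/
lemma tail402_mem (A : ValuationSubring Qb) (f : ℤ[X]) (c : Qb) (hf : aeval c f = 0) (j : ℕ) :
    tail402 f c j ∈ A := by
  by_cases hc : c ∈ A
  · exact aeval_mem402 A hc _
  · have hc0 : c ≠ 0 := fun h => hc (h ▸ A.zero_mem)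
    have hinv : c⁻¹ ∈ A := (A.mem_or_inv_mem c).resolve_left hc
    induction j with
    | zero => rw [tail402_zero, hf]; exact A.zero_mem
    | succ j ih =>
      have h := tail402_succ f c j
      have e : tail402 f c (j + 1) = c⁻¹ * (tail402 f c j - (f.coeff j : Qb)) := by
        rw [h]; field_simp; ring
      rw [e]
      exact A.mul_mem _ _ hinv (A.sub_mem ih (intCast_mem A _))

/-- the products `s_j c` lie in every valuation subring -/
lemma tail402_mul_mem (A : ValuationSubring Qb) (f : ℤ[X]) (c : Qb) (hf : aeval c f = 0)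
    (j : ℕ) : tail402 f c j * c ∈ A := by
  rcases j with _ | j
  · rw [tail402_zero, hf, zero_mul]; exact A.zero_mem
  · have h := tail402_succ f c j
    have e : tail402 f c (j + 1) * c = tail402 f c j - (f.coeff j : Qb) := by
      rw [h]; ring
    rw [e]
    exact A.sub_mem (tail402_mem A f c hf j) (intCast_mem A _)

/-- **Leaf DEN.** -/
theorem den : H121.DenStatement := by
  intro p hp P hP c hc
  -- an integer polynomial killing `c`
  have halg : IsAlgebraic ℤ c :=
    (IsFractionRing.isAlgebraic_iff ℤ ℚ Qb).mpr (Algebra.IsAlgebraic.isAlgebraic c)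
  obtain ⟨f0, hf0, hf0c⟩ := halg
  -- its primitive part
  have hfc : aeval c f0.primPart = 0 := by
    have h2 : aeval c f0 = (f0.content : Qb) * aeval c f0.primPart := by
      conv_lhs => rw [f0.eq_C_content_mul_primPart]
      simp
    rw [hf0c] at h2
    have hcont : (f0.content : Qb) ≠ 0 := by
      exact_mod_cast (Polynomial.content_eq_zero_iff.not.mpr hf0)
    exact (mul_eq_zero.mp h2.symm).resolve_left hcont
  have hprim : f0.primPart.IsPrimitive := f0.isPrimitive_primPart
  generalize f0.primPart = f at hfc hprim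
  -- some coefficient is prime to `p`
  have hex : ∃ i, i ≤ f.natDegree ∧ ¬ (p : ℤ) ∣ f.coeff i := by
    by_contra hcon
    have hcon : ∀ i, i ≤ f.natDegree → (p : ℤ) ∣ f.coeff i := by
      intro i hi
      by_contra hnd
      exact hcon ⟨i, hi, hnd⟩
    have hall : ∀ i, (p : ℤ) ∣ f.coeff i := by
      intro i
      by_cases hi : i ≤ f.natDegree
      · exact hcon i hi
      · rw [coeff_eq_zero_of_natDegree_lt (not_le.mp hi)]; exact dvd_zero _
    have hu : IsUnit (p : ℤ) := hprim _ ((Polynomial.C_dvd_iff_dvd_coeff _ _).mpr hall)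
    exact (Nat.prime_iff_prime_int.mp hp).not_isUnit hu
  -- the last such index
  classical
  set k := Nat.findGreatest (fun i => ¬ (p : ℤ) ∣ f.coeff i) f.natDegree with hk
  obtain ⟨i0, hi0, hi0p⟩ := hex
  have hkp : ¬ (p : ℤ) ∣ f.coeff k :=
    Nat.findGreatest_spec (P := fun i => ¬ (p : ℤ) ∣ f.coeff i) hi0 hi0p
  have hgt : ∀ i, k < i → (p : ℤ) ∣ f.coeff i := by
    intro i hi
    by_cases hin : i ≤ f.natDegree
    · by_contra hnd
      exact Nat.findGreatest_is_greatest (P := fun i => ¬ (p : ℤ) ∣ f.coeff i) hi hin hnd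
    · rw [coeff_eq_zero_of_natDegree_lt (not_le.mp hin)]; exact dvd_zero _
  refine ⟨tail402 f c k, ?_, ?_, ?_⟩
  · exact H382.isIntegral_of_forall_mem hp fun A _ => tail402_mem A f c hfc k
  · -- `s_k = a_k + c * p * t`
    have hdvd : C (p : ℤ) ∣ (divX^[k + 1]) f := by
      rw [Polynomial.C_dvd_iff_dvd_coeff]
      intro i
      rw [coeff_iterate_divX402]
      exact hgt _ (by omega)
    obtain ⟨T, hT⟩ := hdvd
    have h1 : tail402 f c (k + 1) = (p : Qb) * aeval c T := by
      unfold tail402
      rw [hT]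
      simp
    have h2 := tail402_succ f c k
    rw [h1] at h2
    have hva : P.valuation (f.coeff k : Qb) = 1 :=
      Fermat.Agent.Lib.Frob.A1.H382.val_intCast_eq_one P hp hP hkp
    have hvp : P.valuation (p : Qb) < 1 := P.mem_nonunits_iff.mp hP
    have hvT : P.valuation (aeval c T) ≤ 1 :=
      (P.valuation_le_one_iff _).mpr (aeval_mem402 P hc T)
    have hvc : P.valuation c ≤ 1 := (P.valuation_le_one_iff _).mpr hc
    have hsmall : P.valuation ((p : Qb) * aeval c T * c) < 1 := by
      rw [map_mul, map_mul]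
      calc P.valuation (p : Qb) * P.valuation (aeval c T) * P.valuation c
          ≤ P.valuation (p : Qb) * 1 * 1 := by gcongr
        _ = P.valuation (p : Qb) := by simp
        _ < 1 := hvp
    have hv : P.valuation (tail402 f c k) = 1 := by
      rw [h2, add_comm, (P.valuation).map_add_eq_of_lt_left (by rw [hva]; exact hsmall), hva]
    intro hmem
    have := P.mem_nonunits_iff.mp hmem
    rw [hv] at this
    exact lt_irrefl _ this
  · exact H382.isIntegral_of_forall_mem hp fun A _ => tail402_mul_mem A f c hfc k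

end Fermat.Agent.S59.H402
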